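import Fermat.Prelude.Def_CuspForm_HeckeAlgebra
import Fermat.Prelude.Thm_CuspForm_intLattice_fg
import Fermat.Prelude.Thm_CuspForm_mem_intLattice_of_mem_heckeAlgebra
import Fermat.Prelude.Thm_ModularFormClass_qCoeff_heckeT
import Fermat.Prelude.Thm_ModularFormClass_qCoeff_heckeU
import Fermat.Prelude.Thm_ModularForm_sturm_bound_Gamma0
import Fermat.Prelude.Thm_CongruenceSubgroup_one_mem_strictPeriods_Gamma0
import Fermat.Prelude.Def_CuspForm_IntegralLattice
import Fermat.Agent.HeckeEigen.Joint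

/-!
# Basic facts about `S_k(Γ₀(N))`: coefficients, finite dimensionality, joint Hecke eigenvectors
-/

set_option autoImplicit false

noncomputable section

open CongruenceSubgroup ModularFormClass

namespace FermatAgent.HeckeEigen

section Coeff

variable {N : ℕ} {k : ℤ}

theorem hperiod (N : ℕ) :
    (1 : ℝ) ∈ (Subgroup.map (Matrix.SpecialLinearGroup.mapGL ℝ) (Gamma0 N)).strictPeriods :=
  CongruenceSubgroup.one_mem_strictPeriods_Gamma0 N

theorem qCoeff_add (f g : CuspForm (Gamma0 N) k) (n : ℕ) :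
    qCoeff ⇑(f + g) n = qCoeff ⇑f n + qCoeff ⇑g n := by
  simp only [qCoeff, CuspForm.coe_add]
  rw [ModularForm.qExpansion_add one_pos (hperiod N) f g, map_add]

theorem qCoeff_smul (c : ℂ) (f : CuspForm (Gamma0 N) k) (n : ℕ) :
    qCoeff ⇑(c • f) n = c * qCoeff ⇑f n := by
  have h1 : ⇑(c • f) = (c : ℂ) • ⇑f := by
    ext z
    simp
  simp only [qCoeff, h1]
  rw [ModularForm.qExpansion_smul one_pos (hperiod N) (c : ℂ) f]
  simp

/-- The `n`-th coefficient as a linear map. -/
def qCoeffLin (N : ℕ) (k : ℤ) (n : ℕ) : CuspForm (Gamma0 N) k →ₗ[ℂ] ℂ where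
  toFun f := qCoeff ⇑f n
  map_add' f g := qCoeff_add f g n
  map_smul' c f := qCoeff_smul c f n

@[simp] theorem qCoeffLin_apply (f : CuspForm (Gamma0 N) k) (n : ℕ) :
    qCoeffLin N k n f = qCoeff ⇑f n := rfl

theorem qCoeff_zero (n : ℕ) : qCoeff ⇑(0 : CuspForm (Gamma0 N) k) n = 0 :=
  (qCoeffLin N k n).map_zero

theorem qCoeff_neg (f : CuspForm (Gamma0 N) k) (n : ℕ) : qCoeff ⇑(-f) n = - qCoeff ⇑f n :=
  (qCoeffLin N k n).map_neg f

theorem qCoeff_sub (f g : CuspForm (Gamma0 N) k) (n : ℕ) :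
    qCoeff ⇑(f - g) n = qCoeff ⇑f n - qCoeff ⇑g n :=
  (qCoeffLin N k n).map_sub f g

theorem qCoeff_sum {ι : Type*} (s : Finset ι) (f : ι → CuspForm (Gamma0 N) k) (n : ℕ) :
    qCoeff ⇑(∑ i ∈ s, f i) n = ∑ i ∈ s, qCoeff ⇑(f i) n :=
  map_sum (qCoeffLin N k n) f s

theorem qCoeff_at_zero (f : CuspForm (Gamma0 N) k) : qCoeff ⇑f 0 = 0 :=
  CuspFormClass.qExpansion_coeff_zero f one_pos (hperiod N)

/-- Sturm bound for `S_k(Γ₀(N))`. -/
def sturmN (N : ℕ) (k : ℤ) : ℕ := (k * (Gamma0 N).index).toNat / 12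

theorem eq_zero_of_forall_le (N : ℕ) [NeZero N] {k : ℤ} (f : CuspForm (Gamma0 N) k)
    (h : ∀ n : ℕ, n ≤ sturmN N k → qCoeff ⇑f n = 0) : f = 0 := by
  have hmf : (ModularFormClass.modularForm f : ModularForm (Gamma0 N) k) = 0 := by
    refine ModularForm.sturm_bound_Gamma0 N _ fun n hn ↦ ?_
    simpa [qCoeff] using h n hn
  have hcoe : (⇑f : UpperHalfPlane → ℂ) = 0 := by
    have := congrArg (fun F : ModularForm (Gamma0 N) k ↦ (⇑F : UpperHalfPlane → ℂ)) hmf
    simpa using this
  exact DFunLike.coe_injective (hcoe.trans CuspForm.coe_zero.symm)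

theorem eq_zero_of_qCoeff_eq_zero [NeZero N] (f : CuspForm (Gamma0 N) k)
    (h : ∀ n : ℕ, qCoeff ⇑f n = 0) : f = 0 :=
  eq_zero_of_forall_le N f fun n _ => h n

theorem eq_of_qCoeff_eq [NeZero N] {f g : CuspForm (Gamma0 N) k}
    (h : ∀ n : ℕ, qCoeff ⇑f n = qCoeff ⇑g n) : f = g := by
  rw [← sub_eq_zero]
  exact eq_zero_of_qCoeff_eq_zero _ fun n => by rw [qCoeff_sub, h n, sub_self]

/-- `S_k(Γ₀(N))` is finite dimensional. -/
instance finiteDimensional_cuspForm (N : ℕ) [NeZero N] (k : ℤ) :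
    FiniteDimensional ℂ (CuspForm (Gamma0 N) k) := by
  let φ : CuspForm (Gamma0 N) k →ₗ[ℂ] (Fin (sturmN N k + 1) → ℂ) :=
    LinearMap.pi fun i => qCoeffLin N k i
  refine FiniteDimensional.of_injective φ ((injective_iff_map_eq_zero _).mpr fun f hf ↦ ?_)
  exact eq_zero_of_forall_le N f fun n hn => congrFun hf ⟨n, Nat.lt_succ_of_le hn⟩

end Coeff

section Hecke

variable {N : ℕ} [NeZero N] {k : ℤ}

/-- The Hecke operator at the prime `p` on `S_k(Γ₀(N))`: `T_p` if `p ∤ N`, `U_p` if `p ∣ N`. -/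
def heckeOp (N : ℕ) [NeZero N] (k : ℤ) (p : Nat.Primes) :
    Module.End ℂ (CuspForm (Gamma0 N) k) :=
  if h : (p : ℕ) ∣ N then CuspForm.heckeULin k h else CuspForm.heckeTLin k p.2 h

theorem heckeOp_of_dvd {p : Nat.Primes} (h : (p : ℕ) ∣ N) :
    heckeOp N k p = CuspForm.heckeULin k h := dif_pos h

theorem heckeOp_of_not_dvd {p : Nat.Primes} (h : ¬ (p : ℕ) ∣ N) :
    heckeOp N k p = CuspForm.heckeTLin k p.2 h := dif_neg h

theorem heckeOp_comm (p q : Nat.Primes) : Commute (heckeOp N k p) (heckeOp N k q) := by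
  by_cases hp : (p : ℕ) ∣ N <;> by_cases hq : (q : ℕ) ∣ N
  · rw [heckeOp_of_dvd hp, heckeOp_of_dvd hq]
    exact CuspForm.heckeULin_comm k hp hq
  · rw [heckeOp_of_dvd hp, heckeOp_of_not_dvd hq]
    exact (CuspForm.heckeTLin_heckeULin_comm k q.2 hq hp).symm
  · rw [heckeOp_of_not_dvd hp, heckeOp_of_dvd hq]
    exact CuspForm.heckeTLin_heckeULin_comm k p.2 hp hq
  · rw [heckeOp_of_not_dvd hp, heckeOp_of_not_dvd hq]
    exact CuspForm.heckeTLin_comm k p.2 hp q.2 hq

theorem heckeOp_mem_heckeAlgebra (p : Nat.Primes) :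
    heckeOp N k p ∈ CuspForm.heckeAlgebra N k ∅ := by
  by_cases hp : (p : ℕ) ∣ N
  · rw [heckeOp_of_dvd hp]
    exact CuspForm.heckeULin_mem_heckeAlgebra p.2 hp (Set.notMem_empty _)
  · rw [heckeOp_of_not_dvd hp]
    exact CuspForm.heckeTLin_mem_heckeAlgebra p.2 hp (Set.notMem_empty _)

/-- Effect of `heckeOp` on coefficients. -/
theorem qCoeff_heckeOp (p : Nat.Primes) (f : CuspForm (Gamma0 N) k) (n : ℕ) :
    qCoeff ⇑(heckeOp N k p f) n = qCoeff ⇑f (p * n) +
      (if (p : ℕ) ∣ N then 0 else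
        (if (p : ℕ) ∣ n then ((p : ℕ) : ℂ) ^ (k - 1) * qCoeff ⇑f (n / p) else 0)) := by
  by_cases hp : (p : ℕ) ∣ N
  · rw [heckeOp_of_dvd hp, if_pos hp, add_zero, CuspForm.coe_heckeULin_apply,
      ModularFormClass.qCoeff_heckeU f (hperiod N) p.2.ne_zero, ModularForm.coeffHeckeU, mul_comm]
  · rw [heckeOp_of_not_dvd hp, if_neg hp, CuspForm.coe_heckeTLin_apply,
      ModularFormClass.qCoeff_heckeT f (hperiod N) p.2.ne_zero, ModularForm.coeffHeckeT, mul_comm]

end Hecke

section Eigen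

variable {N : ℕ} [NeZero N]

/-- In weight two. -/
theorem qCoeff_heckeOp_two (p : Nat.Primes) (f : CuspForm (Gamma0 N) 2) (n : ℕ) :
    qCoeff ⇑(heckeOp N 2 p f) n = qCoeff ⇑f (p * n) +
      (if (p : ℕ) ∣ N then 0 else ((p : ℕ) : ℂ)) *
        (if (p : ℕ) ∣ n then qCoeff ⇑f (n / p) else 0) := by
  rw [qCoeff_heckeOp]
  split_ifs <;> norm_num

theorem coeff_rec_of_eigen {v : CuspForm (Gamma0 N) 2} {χ : Nat.Primes → ℂ}
    (hv : ∀ p, heckeOp N 2 p v = χ p • v) (p : Nat.Primes) (n : ℕ) :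
    qCoeff ⇑v (p * n) = χ p * qCoeff ⇑v n - (if (p : ℕ) ∣ N then 0 else ((p : ℕ) : ℂ)) *
        (if (p : ℕ) ∣ n then qCoeff ⇑v (n / p) else 0) := by
  have h := congrArg (fun g : CuspForm (Gamma0 N) 2 => qCoeff ⇑g n) (hv p)
  simp only [qCoeff_heckeOp_two, qCoeff_smul] at h
  rw [← h]
  ring

theorem qCoeff_prime_of_eigen {v : CuspForm (Gamma0 N) 2} {χ : Nat.Primes → ℂ}
    (hv : ∀ p, heckeOp N 2 p v = χ p • v) (p : Nat.Primes) :
    qCoeff ⇑v p = χ p * qCoeff ⇑v 1 := by
  have h := coeff_rec_of_eigen hv p 1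
  have h1 : ¬ (p : ℕ) ∣ 1 := p.2.not_dvd_one
  rw [if_neg h1, mul_zero, sub_zero, mul_one] at h
  exact h

/-- A joint Hecke eigenvector with vanishing first coefficient is zero. -/
theorem qCoeff_one_ne_zero_of_eigen {v : CuspForm (Gamma0 N) 2} {χ : Nat.Primes → ℂ}
    (hv : ∀ p, heckeOp N 2 p v = χ p • v) (hv0 : v ≠ 0) : qCoeff ⇑v 1 ≠ 0 := by
  intro h1
  apply hv0
  apply eq_zero_of_qCoeff_eq_zero
  intro n
  induction n using Nat.strongRecOn with
  | ind n ih =>
    rcases Nat.lt_or_ge n 2 with hn | hn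
    · interval_cases n
      · exact qCoeff_at_zero v
      · exact h1
    · obtain ⟨p, hp, m, rfl⟩ := Nat.exists_prime_and_dvd (show n ≠ 1 by omega)
      have hm : m ≠ 0 := by rintro rfl; omega
      have hmpos : 0 < m := Nat.pos_of_ne_zero hm
      have hlt : m < p * m := by nlinarith [hp.two_le]
      have h := coeff_rec_of_eigen hv ⟨p, hp⟩ m
      simp only at h
      rw [h, ih m hlt]
      have hlt2 : m / p < p * m := lt_of_le_of_lt (Nat.div_le_self _ _) hlt
      rw [ih (m / p) hlt2]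
      simp

/-- A joint Hecke eigenvector with first coefficient one is a normalised eigenform. -/
theorem isNormalizedEigenform_of_eigen {v : CuspForm (Gamma0 N) 2} {χ : Nat.Primes → ℂ}
    (hv : ∀ p, heckeOp N 2 p v = χ p • v) (h1 : qCoeff ⇑v 1 = 1) : v.IsNormalizedEigenform := by
  have hχ : ∀ p : Nat.Primes, qCoeff ⇑v p = χ p := fun p => by
    rw [qCoeff_prime_of_eigen hv p, h1, mul_one]
  have hrec := fun p => coeff_rec_of_eigen hv p
  simp only [← hχ] at hrec
  refine ⟨h1, ?_, ?_, ?_⟩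
  · intro m
    induction m using Nat.strongRecOn with
    | ind m ih =>
      intro n hmn
      rcases Nat.lt_or_ge m 2 with hm | hm
      · interval_cases m
        · have hn : n = 1 := by simpa using hmn
          subst hn
          rw [h1, mul_one, mul_one]
        · rw [one_mul, h1, one_mul]
      · obtain ⟨p, hp, m', rfl⟩ := Nat.exists_prime_and_dvd (show m ≠ 1 by omega)
        have hm' : m' ≠ 0 := by rintro rfl; omega
        have hmpos : 0 < m' := Nat.pos_of_ne_zero hm'
        have hlt : m' < p * m' := by nlinarith [hp.two_le]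
        have hcop : m'.Coprime n := Nat.Coprime.coprime_mul_left hmn
        have hpn : p.Coprime n := Nat.Coprime.coprime_mul_right hmn
        have e1 := hrec ⟨p, hp⟩ (m' * n)
        have e2 := hrec ⟨p, hp⟩ m'
        simp only at e1 e2
        rw [mul_assoc, e1, e2, ih m' hlt n hcop]
        by_cases hpm : p ∣ m'
        · have hpmn : p ∣ m' * n := hpm.mul_right n
          rw [if_pos hpm, if_pos hpmn]
          obtain ⟨m'', rfl⟩ := hpm
          have hppos : 0 < p := hp.pos
          have d1 : p * m'' * n / p = m'' * n := by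
            rw [mul_assoc, Nat.mul_div_cancel_left _ hppos]
          have d2 : p * m'' / p = m'' := Nat.mul_div_cancel_left _ hppos
          rw [d1, d2]
          have hcop'' : m''.Coprime n := Nat.Coprime.coprime_mul_left hcop
          have hlt'' : m'' < p * (p * m'') := by
            have : 0 < m'' := Nat.pos_of_ne_zero (by rintro rfl; simp at hm')
            nlinarith [hp.two_le]
          rw [ih m'' hlt'' n hcop'']
          ring
        · have hpmn : ¬ p ∣ m' * n := by
            intro hd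
            rcases hp.dvd_mul.mp hd with h | h
            · exact hpm h
            · exact hp.one_lt.ne' (Nat.Coprime.eq_one_of_dvd hpn h)
          rw [if_neg hpm, if_neg hpmn]
          ring
  · intro p r hp hpN
    have e := hrec ⟨p, hp⟩ (p ^ (r + 1))
    simp only at e
    rw [if_neg hpN, if_pos (dvd_pow_self p (Nat.succ_ne_zero r))] at e
    have d1 : p ^ (r + 1) / p = p ^ r := by
      rw [pow_succ, Nat.mul_div_cancel _ hp.pos]
    rw [d1, ← pow_succ'] at e
    exact e
  · intro p r hp hpN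
    have e := hrec ⟨p, hp⟩ (p ^ (r + 1))
    simp only at e
    rw [if_pos hpN, zero_mul, sub_zero, ← pow_succ'] at e
    exact e

/-- A nonzero joint Hecke eigenvector can be scaled to a normalised eigenform, with prime
coefficients equal to the eigenvalues. -/
theorem exists_isNormalizedEigenform_of_eigen {v : CuspForm (Gamma0 N) 2} {χ : Nat.Primes → ℂ}
    (hv : ∀ p, heckeOp N 2 p v = χ p • v) (hv0 : v ≠ 0) :
    ∃ f : CuspForm (Gamma0 N) 2, f.IsNormalizedEigenform ∧
      (∀ p, heckeOp N 2 p f = χ p • f) ∧ ∀ p : Nat.Primes, qCoeff ⇑f p = χ p := by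
  have h1 := qCoeff_one_ne_zero_of_eigen hv hv0
  set f : CuspForm (Gamma0 N) 2 := (qCoeff ⇑v 1)⁻¹ • v with hf
  have hfe : ∀ p, heckeOp N 2 p f = χ p • f := by
    intro p
    rw [hf, map_smul, hv p, smul_comm]
  have hf1 : qCoeff ⇑f 1 = 1 := by
    rw [hf, qCoeff_smul, inv_mul_cancel₀ h1]
  exact ⟨f, isNormalizedEigenform_of_eigen hfe hf1, hfe, fun p => by
    rw [qCoeff_prime_of_eigen hfe p, hf1, mul_one]⟩

/-- Conversely a normalised eigenform is a joint Hecke eigenvector. -/
theorem heckeOp_eq_of_isNormalizedEigenform {f : CuspForm (Gamma0 N) 2}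
    (hf : f.IsNormalizedEigenform) (p : Nat.Primes) :
    heckeOp N 2 p f = qCoeff ⇑f p • f := by
  apply eq_of_qCoeff_eq
  intro n
  rw [qCoeff_heckeOp_two, qCoeff_smul]
  rcases Nat.eq_zero_or_pos n with rfl | hn
  · simp [qCoeff_at_zero]
  obtain ⟨r, m, hpm, rfl⟩ := Nat.exists_eq_pow_mul_and_not_dvd hn.ne' (p : ℕ) p.2.ne_one
  have hcop : ∀ s, Nat.Coprime ((p : ℕ) ^ s) m := fun s =>
    Nat.Coprime.pow_left s ((Nat.Prime.coprime_iff_not_dvd p.2).mpr hpm)
  have hmul : ∀ s, qCoeff ⇑f ((p : ℕ) ^ s * m) = qCoeff ⇑f ((p : ℕ) ^ s) * qCoeff ⇑f m :=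
    fun s => hf.qCoeff_mul_of_coprime _ _ (hcop s)
  rcases r with _ | r
  · have h0 : ¬ (p : ℕ) ∣ (p : ℕ) ^ 0 * m := by simpa using hpm
    rw [if_neg h0, mul_zero, add_zero, pow_zero, one_mul]
    have := hmul 1
    rwa [pow_one] at this
  · have h1 : (p : ℕ) ∣ (p : ℕ) ^ (r + 1) * m := (dvd_pow_self _ (Nat.succ_ne_zero r)).mul_right m
    have d1 : (p : ℕ) ^ (r + 1) * m / p = (p : ℕ) ^ r * m := by
      rw [pow_succ', mul_assoc, Nat.mul_div_cancel_left _ p.2.pos]
    have d2 : (p : ℕ) * ((p : ℕ) ^ (r + 1) * m) = (p : ℕ) ^ (r + 2) * m := by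
      ring
    rw [if_pos h1, d1, d2, hmul, hmul, hmul]
    by_cases hpN : (p : ℕ) ∣ N
    · rw [if_pos hpN, hf.qCoeff_prime_pow_of_dvd p r p.2 hpN]
      ring
    · rw [if_neg hpN, hf.qCoeff_prime_pow_of_not_dvd p r p.2 hpN]
      ring

end Eigen

section Integrality

variable {N : ℕ} [NeZero N] {k : ℤ}

/-- If `intLattice` spans, Hecke eigenvalues are algebraic integers. -/
theorem isIntegral_of_heckeOp_eigen (hk : 1 ≤ k) (h : CuspForm.HasIntegralStructure N k)
    {t : Module.End ℂ (CuspForm (Gamma0 N) k)} (ht : t ∈ CuspForm.heckeAlgebra N k ∅)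
    {v : CuspForm (Gamma0 N) k} (hv0 : v ≠ 0) {c : ℂ} (hv : t v = c • v) : IsIntegral ℤ c := by
  set L := CuspForm.intLattice N k with hL
  have hLfg : Module.Finite ℤ L := Module.Finite.iff_fg.mpr (CuspForm.intLattice_fg N k)
  have hmap : ∀ x ∈ L, (t.restrictScalars ℤ) x ∈ L := fun x hx =>
    CuspForm.mem_intLattice_of_mem_heckeAlgebra hk ht hx
  set tL : Module.End ℤ L := (t.restrictScalars ℤ).restrict hmap with htL
  obtain ⟨P, hPm, hP⟩ := Algebra.IsIntegral.isIntegral (R := ℤ) tL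
  -- `P(t) = 0` on `L`, hence everywhere
  have hpow : ∀ (n : ℕ) (x : L), (((tL ^ n) x : L) : CuspForm (Gamma0 N) k) = (t ^ n) x := by
    intro n
    induction n with
    | zero => intro x; simp
    | succ n ih =>
      intro x
      rw [pow_succ, pow_succ, Module.End.mul_apply, Module.End.mul_apply, ih (tL x)]
      rfl
  have haeval : ∀ (Q : Polynomial ℤ) (x : L),
      (((Polynomial.aeval tL Q) x : L) : CuspForm (Gamma0 N) k) = (Polynomial.aeval t Q) x := by
    intro Q x
    induction Q using Polynomial.induction_on' with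
    | add p q hp hq =>
      simp only [map_add, LinearMap.add_apply, Submodule.coe_add, hp, hq]
    | monomial n a =>
      simp only [Polynomial.aeval_monomial, Module.End.mul_apply, Algebra.algebraMap_eq_smul_one,
        LinearMap.smul_apply, Module.End.one_apply]
      rw [Submodule.coe_smul, hpow]
  have hzero : Polynomial.aeval t P = 0 := by
    apply LinearMap.ext
    intro x
    have hx : x ∈ Submodule.span ℂ (L : Set (CuspForm (Gamma0 N) k)) := by
      have : Submodule.span ℂ (L : Set (CuspForm (Gamma0 N) k)) = ⊤ := h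
      rw [this]; exact Submodule.mem_top
    have hle : Submodule.span ℂ (L : Set (CuspForm (Gamma0 N) k)) ≤
        LinearMap.ker (Polynomial.aeval t P) := by
      rw [Submodule.span_le]
      intro y hy
      have h2 := haeval P ⟨y, hy⟩
      have h3 : Polynomial.aeval tL P = 0 := by
        rw [Polynomial.aeval_def]; exact hP
      rw [h3] at h2
      simpa using h2.symm
    simpa using hle hx
  refine ⟨P, hPm, ?_⟩
  have hPv : (Polynomial.aeval t P) v = (Polynomial.aeval c P) • v := by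
    have h1 : (Polynomial.aeval t (P.map (Int.castRingHom ℂ))) v =
        (P.map (Int.castRingHom ℂ)).eval c • v :=
      Module.End.aeval_apply_of_hasEigenvector
        (Module.End.hasEigenvector_iff.mpr ⟨Module.End.mem_eigenspace_iff.mpr hv, hv0⟩)
    have h4 : Polynomial.aeval t (P.map (Int.castRingHom ℂ)) = Polynomial.aeval t P := by
      rw [Polynomial.aeval_def, Polynomial.eval₂_map, Polynomial.aeval_def]
      congr 1
      exact RingHom.ext_int _ _
    rw [h4] at h1
    rw [h1, Polynomial.eval_map, Polynomial.aeval_def]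
    congr 2
  rw [hzero, LinearMap.zero_apply] at hPv
  have := (smul_eq_zero.mp hPv.symm).resolve_right hv0
  rwa [Polynomial.aeval_def] at this

end Integrality

end FermatAgent.HeckeEigen

end
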