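import Mathlib

/-!
# Joint eigenvectors of commuting families and the abstract Deligne–Serre lifting lemma
-/

set_option autoImplicit false

namespace FermatAgent.HeckeEigen

open Module

section Joint

variable {ι K V : Type*} [Field K] [AddCommGroup V] [Module K V]

/-- A commuting family of endomorphisms of a nonzero finite dimensional vector space over an
algebraically closed field has a joint eigenvector. -/
theorem exists_joint_eigenvector [IsAlgClosed K] [FiniteDimensional K V] [Nontrivial V]
    (T : ι → End K V) (hcomm : ∀ i j, Commute (T i) (T j)) :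
    ∃ (χ : ι → K) (v : V), v ≠ 0 ∧ ∀ i, T i v = χ i • v := by
  classical
  generalize hd : finrank K V = n
  induction n using Nat.strongRecOn generalizing V with
  | ind n ih =>
    by_cases hscal : ∀ i, ∃ c : K, ∀ v, T i v = c • v
    · choose χ hχ using hscal
      obtain ⟨v, hv⟩ := exists_ne (0 : V)
      exact ⟨χ, v, hv, fun i => hχ i v⟩
    · push Not at hscal
      obtain ⟨i, hi⟩ := hscal
      obtain ⟨μ, hμ⟩ := Module.End.exists_eigenvalue (T i)
      set E : Submodule K V := (T i).eigenspace μ with hE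
      have hEne : E ≠ ⊥ := hμ
      have hEtop : E ≠ ⊤ := by
        intro htop
        obtain ⟨v, hv⟩ := hi μ
        have hvE : v ∈ E := by rw [htop]; exact Submodule.mem_top
        exact hv (Module.End.mem_eigenspace_iff.mp hvE)
      have hmap : ∀ j, ∀ x ∈ E, T j x ∈ E := by
        intro j x hx
        rw [hE, Module.End.mem_eigenspace_iff] at hx ⊢
        have h1 : T i (T j x) = T j (T i x) := by
          have := congrArg (fun (A : End K V) => A x) (hcomm i j).eq
          simpa using this
        rw [h1, hx, map_smul]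
      have hlt : finrank K E < n := hd ▸ Submodule.finrank_lt hEtop
      have : Nontrivial E := (Submodule.nontrivial_iff_ne_bot).mpr hEne
      have hcomm' : ∀ j k, Commute ((T j).restrict (hmap j)) ((T k).restrict (hmap k)) := by
        intro j k
        apply LinearMap.ext
        intro x
        apply Subtype.ext
        have := congrArg (fun (A : End K V) => A x) (hcomm j k).eq
        simpa using this
      obtain ⟨χ, v, hv, hχ⟩ := ih (finrank K E) hlt (fun j => (T j).restrict (hmap j)) hcomm' rfl
      refine ⟨χ, v, fun h => hv (Subtype.ext h), fun j => ?_⟩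
      have := congrArg Subtype.val (hχ j)
      simpa using this

/-- If the simultaneous generalised eigenspace of a commuting family is nonzero, it contains a
genuine joint eigenvector. -/
theorem exists_joint_eigenvector_of_iInf_ne_bot [IsAlgClosed K] [FiniteDimensional K V]
    (T : ι → End K V) (hcomm : ∀ i j, Commute (T i) (T j)) (χ : ι → K)
    (h : ⨅ i, (T i).maxGenEigenspace (χ i) ≠ ⊥) :
    ∃ v : V, v ≠ 0 ∧ ∀ i, T i v = χ i • v := by
  set W : Submodule K V := ⨅ i, (T i).maxGenEigenspace (χ i) with hW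
  have : Nontrivial W := (Submodule.nontrivial_iff_ne_bot).mpr h
  have hmap : ∀ j, ∀ x ∈ W, T j x ∈ W := by
    intro j x hx
    rw [hW, Submodule.mem_iInf] at hx ⊢
    intro i
    exact Module.End.mapsTo_maxGenEigenspace_of_comm (hcomm i j) (χ i) (hx i)
  have hcomm' : ∀ j k, Commute ((T j).restrict (hmap j)) ((T k).restrict (hmap k)) := by
    intro j k
    apply LinearMap.ext
    intro x
    apply Subtype.ext
    have := congrArg (fun (A : End K V) => A x) (hcomm j k).eq
    simpa using this
  obtain ⟨ψ, v, hv, hψ⟩ := exists_joint_eigenvector (fun j => (T j).restrict (hmap j)) hcomm'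
  have hv0 : (v : V) ≠ 0 := fun h => hv (Subtype.ext h)
  have hψ' : ∀ j, T j v = ψ j • (v : V) := by
    intro j
    have := congrArg Subtype.val (hψ j)
    simpa using this
  refine ⟨v, hv0, fun j => ?_⟩
  have hvW : (v : V) ∈ (T j).maxGenEigenspace (χ j) := by
    exact (Submodule.mem_iInf _).mp v.2 j
  have hvE : (v : V) ∈ (T j).eigenspace (ψ j) := Module.End.mem_eigenspace_iff.mpr (hψ' j)
  by_cases hne : ψ j = χ j
  · rw [← hne]; exact hψ' j
  · exfalso
    have hdis := (T j).disjoint_genEigenspace hne 1 ⊤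
    have : (v : V) ∈ (⊥ : Submodule K V) := by
      rw [← hdis.eq_bot]
      exact ⟨hvE, hvW⟩
    exact hv0 ((Submodule.mem_bot K).mp this)

/-- **Abstract Deligne–Serre lifting lemma**.  Let `T i` be commuting endomorphisms of a finite
dimensional `K`-vector space, `O → K` a ring, `𝔪` a prime of `O`, `M` an additive subgroup of `V`
stable under `O` and the `T i`, and `f` a vector which is an eigenvector modulo `M` with eigenvalues
`a i ∈ O`, such that `u • f ∈ M` only if `u ∈ 𝔪`.  If all joint eigenvalue systems have values in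
`O`, then one of them is congruent to `a` modulo `𝔪`. -/
theorem exists_joint_eigenvector_congr [IsAlgClosed K] [FiniteDimensional K V]
    {O : Type*} [CommRing O] [Algebra O K] (𝔪 : Ideal O) (h𝔪 : 𝔪.IsPrime)
    (T : ι → End K V) (hcomm : ∀ i j, Commute (T i) (T j))
    (M : AddSubgroup V) (hMT : ∀ i, ∀ x ∈ M, T i x ∈ M)
    (hMO : ∀ c : O, ∀ x ∈ M, algebraMap O K c • x ∈ M)
    (f : V) (a : ι → O) (hf : ∀ i, T i f - algebraMap O K (a i) • f ∈ M)
    (hfM : ∀ u : O, algebraMap O K u • f ∈ M → u ∈ 𝔪)
    (hint : ∀ (χ : ι → K) (v : V), v ≠ 0 → (∀ i, T i v = χ i • v) →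
      ∀ i, ∃ c : O, algebraMap O K c = χ i) :
    ∃ (χ : ι → O) (v : V), v ≠ 0 ∧ (∀ i, T i v = algebraMap O K (χ i) • v) ∧
      ∀ i, χ i - a i ∈ 𝔪 := by
  classical
  by_contra hcon
  push Not at hcon
  -- the good pairs
  let Q : Submonoid (End K V × O) :=
    { carrier := {q | q.1 f - algebraMap O K q.2 • f ∈ M ∧ (∀ x ∈ M, q.1 x ∈ M) ∧
        ∀ i, Commute q.1 (T i)}
      one_mem' := by
        refine ⟨by simp, fun x hx => by simpa using hx, fun i => Commute.one_left _⟩
      mul_mem' := by
        rintro ⟨A, u⟩ ⟨B, w⟩ ⟨hA1, hA2, hA3⟩ ⟨hB1, hB2, hB3⟩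
        refine ⟨?_, fun x hx => hA2 _ (hB2 _ hx), fun i => (hA3 i).mul_left (hB3 i)⟩
        simp only [Prod.mk_mul_mk, Module.End.mul_apply, map_mul] at hA1 hA2 hB1 hB2 ⊢
        have h1 : A (B f - algebraMap O K w • f) ∈ M := hA2 _ hB1
        have h2 : algebraMap O K w • (A f - algebraMap O K u • f) ∈ M := hMO _ _ hA1
        have h3 := M.add_mem h1 h2
        convert h3 using 1
        rw [map_sub, map_smul, smul_sub, smul_smul, mul_comm (algebraMap O K w)]
        abel }
  set W : (ι → K) → Submodule K V := fun χ => ⨅ i, (T i).maxGenEigenspace (χ i) with hW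
  have hind : iSupIndep W :=
    Module.End.independent_iInf_maxGenEigenspace_of_forall_mapsTo T
      (fun i j φ => Module.End.mapsTo_maxGenEigenspace_of_comm (hcomm j i) φ)
  have htop : ⨆ χ, W χ = ⊤ :=
    Module.End.iSup_iInf_maxGenEigenspace_eq_top_of_iSup_maxGenEigenspace_eq_top_of_commute T
      (fun i j _ => hcomm i j) (fun i => Module.End.iSup_maxGenEigenspace_eq_top (T i))
  have hfin : {χ | W χ ≠ ⊥}.Finite := WellFoundedGT.finite_ne_bot_of_iSupIndep hind
  -- for each occurring `χ` a good pair killing `W χ`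
  have hkey : ∀ χ, W χ ≠ ⊥ → ∃ q ∈ Q, q.2 ∉ 𝔪 ∧ ∀ x ∈ W χ, q.1 x = 0 := by
    intro χ hχ
    obtain ⟨v, hv0, hv⟩ := exists_joint_eigenvector_of_iInf_ne_bot T hcomm χ hχ
    choose χ' hχ' using hint χ v hv0 hv
    obtain ⟨i, hi⟩ := hcon χ' v hv0 (fun i => by rw [hχ' i]; exact hv i)
    have hq : ((T i - χ i • (1 : End K V)), a i - χ' i) ∈ Q := by
      refine ⟨?_, ?_, ?_⟩
      · simp only [LinearMap.sub_apply, LinearMap.smul_apply, Module.End.one_apply, map_sub, hχ']
        have := hf i
        convert this using 1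
        rw [sub_smul]
        abel
      · intro x hx
        simp only [LinearMap.sub_apply, LinearMap.smul_apply, Module.End.one_apply]
        rw [← hχ' i]
        exact M.sub_mem (hMT i x hx) (hMO _ _ hx)
      · intro j
        exact (hcomm i j).sub_left ((Commute.one_left _).smul_left _)
    refine ⟨((T i - χ i • (1 : End K V)), a i - χ' i) ^ (finrank K V), pow_mem hq _, ?_, ?_⟩
    · intro hmem
      rw [Prod.pow_snd] at hmem
      have := h𝔪.mem_of_pow_mem _ hmem
      apply hi
      have h2 := 𝔪.neg_mem this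
      rwa [neg_sub] at h2
    · intro x hx
      rw [Prod.pow_fst]
      have hx' : x ∈ (T i).maxGenEigenspace (χ i) := by
        rw [hW] at hx
        exact (Submodule.mem_iInf _).mp hx i
      rw [Module.End.maxGenEigenspace_eq_genEigenspace_finrank] at hx'
      exact Module.End.mem_genEigenspace_nat.mp hx'
  have hstep : ∀ s : Finset (ι → K), (∀ χ ∈ s, W χ ≠ ⊥) →
      ∃ q ∈ Q, q.2 ∉ 𝔪 ∧ ∀ χ ∈ s, ∀ x ∈ W χ, q.1 x = 0 := by
    intro s
    induction s using Finset.induction_on with
    | empty =>
      intro _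
      exact ⟨1, Q.one_mem, fun h => h𝔪.ne_top ((Ideal.eq_top_iff_one _).mpr h), by simp⟩
    | insert χ s hχs ih =>
      intro hs
      obtain ⟨q, hqQ, hqm, hq⟩ := ih (fun ψ hψ => hs ψ (Finset.mem_insert_of_mem hψ))
      obtain ⟨r, hrQ, hrm, hr⟩ := hkey χ (hs χ (Finset.mem_insert_self _ _))
      refine ⟨q * r, Q.mul_mem hqQ hrQ, ?_, ?_⟩
      · intro hmem
        rcases h𝔪.mem_or_mem hmem with h | h
        · exact hqm h
        · exact hrm h
      · intro ψ hψ x hx
        rw [Prod.fst_mul, Module.End.mul_apply]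
        rcases Finset.mem_insert.mp hψ with rfl | hψs
        · rw [hr x hx, map_zero]
        · -- `r.1 x ∈ W ψ`
          have hrx : r.1 x ∈ W ψ := by
            rw [hW] at hx ⊢
            rw [Submodule.mem_iInf] at hx ⊢
            intro i
            exact Module.End.mapsTo_maxGenEigenspace_of_comm ((hrQ.2.2 i).symm) (ψ i) (hx i)
          exact hq ψ hψs _ hrx
  obtain ⟨q, hqQ, hqm, hq⟩ := hstep hfin.toFinset (fun χ hχ => by simpa using hχ)
  have hq0 : q.1 = 0 := by
    apply LinearMap.ext
    intro x
    have hx : x ∈ ⨆ χ, W χ := htop ▸ Submodule.mem_top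
    have hle : ⨆ χ, W χ ≤ LinearMap.ker q.1 := by
      refine iSup_le fun χ => ?_
      by_cases hχ : W χ = ⊥
      · rw [hχ]; exact bot_le
      · intro y hy
        rw [LinearMap.mem_ker]
        exact hq χ (by simpa using hχ) y hy
    simpa using hle hx
  apply hqm
  apply hfM
  have h1 := hqQ.1
  rw [hq0, LinearMap.zero_apply, zero_sub] at h1
  simpa using M.neg_mem h1

end Joint

end FermatAgent.HeckeEigen
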